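import Fermat.Agent.S53.H596.PowerSeriesCNL

/-!
# Row HARD, cell GAL — traceless coordinates determine a `2 × 2` matrix of given determinant
(helper546)

`R` a complete local `𝒪`-algebra, `2` a unit.  Let `M ∈ M₂(R)` with `det M = d ∈ 𝒪`, congruent
modulo `𝔪_R` to the scalar `c ∈ 𝒪` (`c² ≡ d`).  If the traceless coordinates
`u₀ = (M₀₀ − M₁₁)/2`, `u₁ = M₀₁`, `u₂ = M₁₀` are among the values `x i` of a point
`x : ι → 𝔪_R`, then ALL entries of `M` are values at `x` of power series over `𝒪`: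
`tr M / 2 = √(d + u₀² + u₁ u₂)` (Hensel in `𝒪⟦ι⟧`, uniqueness in `R`).

* `exists_sqrt_mvPowerSeries` — the square root in `𝒪⟦ι⟧`;
* `entries_mem_range_evalCNL` — the entries of `M` lie in the range of
  `S53.H596.evalCNL (maximalIdeal R) x`.

Nothing unproved in this file.
-/

set_option autoImplicit false
set_option linter.unusedSectionVars false

namespace Fermat.Agent.S38.H546

noncomputable section

open IsLocalRing Polynomial
open Fermat.Agent.S53.H596

section Hensel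

variable {𝒪 : Type} [CommRing 𝒪] [IsLocalRing 𝒪] [IsNoetherianRing 𝒪]
  [IsAdicComplete (maximalIdeal 𝒪) 𝒪]

/-- **Square roots in `𝒪⟦ι⟧`** (Hensel): `√(d + y)`, `y ∈ 𝔪`, congruent to `c` (`c² ≡ d`,
`2c` a unit). -/
theorem exists_sqrt_mvPowerSeries {ι : Type} [Finite ι] (c d : 𝒪)
    (h2c : IsUnit (2 * c)) (hcd : c ^ 2 - d ∈ maximalIdeal 𝒪)
    (y : MvPowerSeries ι 𝒪) (hy : y ∈ maximalIdeal (MvPowerSeries ι 𝒪)) :
    ∃ s : MvPowerSeries ι 𝒪, s ^ 2 = MvPowerSeries.C d + y ∧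
      s - MvPowerSeries.C c ∈ maximalIdeal (MvPowerSeries ι 𝒪) := by
  have : IsAdicComplete (maximalIdeal (MvPowerSeries ι 𝒪)) (MvPowerSeries ι 𝒪) :=
    isAdicComplete_mvPowerSeries
  let f : (MvPowerSeries ι 𝒪)[X] := X ^ 2 - Polynomial.C (MvPowerSeries.C d + y)
  have hf : f.Monic := Polynomial.monic_X_pow_sub_C _ (by norm_num)
  have h1 : f.eval (MvPowerSeries.C c) ∈ maximalIdeal (MvPowerSeries ι 𝒪) := by
    have : f.eval (MvPowerSeries.C c) = MvPowerSeries.C (c ^ 2 - d) - y := by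
      simp only [f, eval_sub, eval_pow, eval_X, eval_C, map_sub, map_pow]
      ring
    rw [this]
    exact Ideal.sub_mem _ (C_mem_maximalIdeal_mvPowerSeries hcd) hy
  have h2 : IsUnit (Ideal.Quotient.mk (maximalIdeal (MvPowerSeries ι 𝒪))
      (f.derivative.eval (MvPowerSeries.C c))) := by
    have : f.derivative.eval (MvPowerSeries.C c) = MvPowerSeries.C (2 * c) := by
      have hd : f.derivative = Polynomial.C 2 * X := by
        simp only [f, derivative_sub, derivative_X_pow, derivative_C, sub_zero]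
        norm_num
      rw [hd, eval_mul, eval_X, eval_C, map_mul, map_ofNat]
    rw [this]
    exact (h2c.map MvPowerSeries.C).map _
  obtain ⟨s, hs, hs'⟩ := HenselianRing.is_henselian f hf (MvPowerSeries.C c) h1 h2
  refine ⟨s, ?_, hs'⟩
  have h3 : f.eval s = 0 := hs
  simp only [f, eval_sub, eval_pow, eval_X, eval_C] at h3
  exact sub_eq_zero.mp h3

variable {R : Type} [CommRing R] [IsLocalRing R] [IsAdicComplete (maximalIdeal R) R]
  [Algebra 𝒪 R]

/-- `evalCNL` maps the maximal ideal of `𝒪⟦ι⟧` into the maximal ideal. -/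
theorem evalCNL_mem_maximalIdeal {ι : Type} [Finite ι] (hloc : IsLocalHom (algebraMap 𝒪 R))
    (x : ι → R) (hx : ∀ i, x i ∈ maximalIdeal R) {f : MvPowerSeries ι 𝒪}
    (hf : f ∈ maximalIdeal (MvPowerSeries ι 𝒪)) :
    evalCNL (R := 𝒪) (maximalIdeal R) x hx f ∈ maximalIdeal R := by
  have h1 : evalCNL (R := 𝒪) (maximalIdeal R) x hx f ∈
      Ideal.map (evalCNL (R := 𝒪) (maximalIdeal R) x hx)
        (maximalIdeal (MvPowerSeries ι 𝒪)) := Ideal.mem_map_of_mem _ hf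
  rw [map_maximalIdeal_mvPowerSeries] at h1
  refine (sup_le ?_ ?_ : _ ≤ maximalIdeal R) h1
  · rw [Ideal.map_le_iff_le_comap]
    intro a ha
    rw [Ideal.mem_comap, mem_maximalIdeal, mem_nonunits_iff]
    intro hu
    exact (mem_maximalIdeal a).1 ha (hloc.map_nonunit a hu)
  · rw [Ideal.span_le]
    rintro _ ⟨i, rfl⟩
    show evalCNL (R := 𝒪) (maximalIdeal R) x hx (MvPowerSeries.X i) ∈ maximalIdeal R
    rw [evalCNL_X]
    exact hx i

/-- **The entries of a matrix of given determinant are power series in its traceless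
coordinates.** -/
theorem entries_mem_range_evalCNL {ι : Type} [Finite ι] (hloc : IsLocalHom (algebraMap 𝒪 R))
    (x : ι → R) (hx : ∀ i, x i ∈ maximalIdeal R)
    (M : Matrix (Fin 2) (Fin 2) R) (c d : 𝒪) (h2c : IsUnit (2 * c))
    (hcd : c ^ 2 - d ∈ maximalIdeal 𝒪)
    (hdet : M.det = algebraMap 𝒪 R d)
    (hM0 : M 0 0 - algebraMap 𝒪 R c ∈ maximalIdeal R)
    (hM1 : M 1 1 - algebraMap 𝒪 R c ∈ maximalIdeal R)
    (i0 i1 i2 : ι) (h0 : 2 * x i0 = M 0 0 - M 1 1) (h1 : x i1 = M 0 1) (h2 : x i2 = M 1 0) :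
    ∀ i j, M i j ∈ Set.range (evalCNL (R := 𝒪) (maximalIdeal R) x hx) := by
  set ev := evalCNL (R := 𝒪) (maximalIdeal R) x hx with hev
  have hX : ∀ i, ev (MvPowerSeries.X i) = x i := fun i => evalCNL_X _ _ _ i
  have hC : ∀ a : 𝒪, ev (MvPowerSeries.C a) = algebraMap 𝒪 R a := fun a => by
    rw [MvPowerSeries.c_eq_algebraMap]
    exact ev.commutes a
  -- the square root
  have hy : (MvPowerSeries.X i0 ^ 2 + MvPowerSeries.X i1 * MvPowerSeries.X i2 :
      MvPowerSeries ι 𝒪) ∈ maximalIdeal (MvPowerSeries ι 𝒪) :=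
    Ideal.add_mem _ (Ideal.pow_mem_of_mem _ (X_mem_maximalIdeal_mvPowerSeries i0) 2 (by norm_num))
      (Ideal.mul_mem_right _ _ (X_mem_maximalIdeal_mvPowerSeries i1))
  obtain ⟨s, hs, hsc⟩ := exists_sqrt_mvPowerSeries c d h2c hcd _ hy
  have hs' : ev s ^ 2 = algebraMap 𝒪 R d + (x i0 ^ 2 + x i1 * x i2) := by
    rw [← map_pow, hs, map_add, map_add, map_pow, map_mul, hC, hX, hX, hX]
  have hsc' : ev s - algebraMap 𝒪 R c ∈ maximalIdeal R := by
    have := evalCNL_mem_maximalIdeal hloc x hx hsc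
    rwa [map_sub, ← hev, hC] at this
  -- units
  have h2cR : IsUnit (algebraMap 𝒪 R (2 * c)) := h2c.map _
  have h2R : IsUnit (2 : R) := by
    have : algebraMap 𝒪 R (2 * c) = 2 * algebraMap 𝒪 R c := by
      rw [map_mul, map_ofNat]
    rw [this] at h2cR
    exact isUnit_of_mul_isUnit_left h2cR
  -- `(2 ev s)² = (tr M)²`
  have hdet' : M 0 0 * M 1 1 - M 0 1 * M 1 0 = algebraMap 𝒪 R d := by
    rw [← hdet, Matrix.det_fin_two]
  have hsq : (2 * ev s - (M 0 0 + M 1 1)) * (2 * ev s + (M 0 0 + M 1 1)) = 0 := by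
    have e1 : (2 * ev s) ^ 2 = (M 0 0 + M 1 1) ^ 2 := by
      calc (2 * ev s) ^ 2 = 4 * ev s ^ 2 := by ring
        _ = 4 * (algebraMap 𝒪 R d + (x i0 ^ 2 + x i1 * x i2)) := by rw [hs']
        _ = 4 * algebraMap 𝒪 R d + (2 * x i0) ^ 2 + 4 * (x i1 * x i2) := by ring
        _ = 4 * (M 0 0 * M 1 1 - M 0 1 * M 1 0) + (M 0 0 - M 1 1) ^ 2 +
            4 * (M 0 1 * M 1 0) := by rw [hdet', h0, h1, h2]
        _ = (M 0 0 + M 1 1) ^ 2 := by ring
    calc (2 * ev s - (M 0 0 + M 1 1)) * (2 * ev s + (M 0 0 + M 1 1))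
        = (2 * ev s) ^ 2 - (M 0 0 + M 1 1) ^ 2 := by ring
      _ = 0 := by rw [e1, sub_self]
  have hunit : IsUnit (2 * ev s + (M 0 0 + M 1 1)) := by
    have e : 2 * ev s + (M 0 0 + M 1 1) = 2 * algebraMap 𝒪 R (2 * c) +
        (2 * (ev s - algebraMap 𝒪 R c) + (M 0 0 - algebraMap 𝒪 R c) +
          (M 1 1 - algebraMap 𝒪 R c)) := by
      rw [map_mul, map_ofNat]
      ring
    rw [e]
    have hm : 2 * (ev s - algebraMap 𝒪 R c) + (M 0 0 - algebraMap 𝒪 R c) +
        (M 1 1 - algebraMap 𝒪 R c) ∈ maximalIdeal R :=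
      Ideal.add_mem _ (Ideal.add_mem _ (Ideal.mul_mem_left _ _ hsc') hM0) hM1
    by_contra hnu
    have h3 : 2 * algebraMap 𝒪 R (2 * c) + (2 * (ev s - algebraMap 𝒪 R c) +
        (M 0 0 - algebraMap 𝒪 R c) + (M 1 1 - algebraMap 𝒪 R c)) ∈ maximalIdeal R :=
      (mem_maximalIdeal _).2 hnu
    have h4 : 2 * algebraMap 𝒪 R (2 * c) ∈ maximalIdeal R := by
      have := Ideal.sub_mem _ h3 hm
      rwa [add_sub_cancel_right] at this
    exact (mem_maximalIdeal _).1 h4 (h2R.mul h2cR)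
  have htr : 2 * ev s = M 0 0 + M 1 1 := by
    have := (hunit.mul_left_eq_zero).1 hsq
    exact sub_eq_zero.mp this
  have h00 : M 0 0 = ev (s + MvPowerSeries.X i0) := by
    apply h2R.mul_left_cancel
    rw [map_add, hX, mul_add, htr, h0]
    ring
  have h11 : M 1 1 = ev (s - MvPowerSeries.X i0) := by
    apply h2R.mul_left_cancel
    rw [map_sub, hX, mul_sub, htr, h0]
    ring
  intro i j
  fin_cases i <;> fin_cases j
  · exact ⟨_, h00.symm⟩
  · exact ⟨MvPowerSeries.X i1, by rw [hX]; exact h1⟩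
  · exact ⟨MvPowerSeries.X i2, by rw [hX]; exact h2⟩
  · exact ⟨_, h11.symm⟩

end Hensel

end

end Fermat.Agent.S38.H546
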