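import Fermat.Agent.S38.H953.Pivot
import Fermat.Agent.S38.H546.HenselCoord
import Fermat.Agent.S38.IA.Spec2

/-!
# Row HARD, cell GAL — the presentation in SIX traceless coordinates per pivot (helper546)

The frozen `IA.IAGalStatement` (`S38/IA/Spec2.lean`) asks for a surjection
`γ : LocAmb 𝒪 Piv g = 𝒪⟦v_{q,0..2}, w_{q,0..2} (q ∈ Piv), x₁..x_g⟧ ↠ R_Q` whose values at the
variables are the TRACELESS coordinates of `Σ_q = ρ^univ(σ_q)` and `Φ_q = ρ^univ(φ_q)`;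
helper953's `exists_surjective_pivots` gives it for the EIGHT entries of `Σ_q − 1`, `Φ_q − a_q`.
Here: the six-coordinate form, by `HenselCoord.entries_mem_range_evalCNL` (the entries are power
series in the traceless coordinates because `det Σ_q = 1`, `det Φ_q = d_q ∈ 𝒪`).

* `exists_surjective_powerSeries_of_range` — helper953's `exists_surjective_powerSeries_of_relSelCob`
  with the entries in the RANGE of the evaluation map (instead of the subalgebra generated by the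
  coordinates);
* `coord6`, `coord6_mem` — the coordinates;
* `exists_surjective_coord6` — the presentation `𝒪⟦(J × Fin 6) ⊕ Fin g⟧ ↠ DQ.R`;
* `frameBasis`, `toMatrix_frameBasis` — the basis of `DQ.ρ.V` of a frame;
* `exists_surjective_locAmb` — the same in the vocabulary of `IA.IAGalStatement`
  (`LocAmb`, `vVar`, `wVar`, `IsTracelessCoords`).

Nothing unproved in this file.
-/

set_option autoImplicit false
set_option linter.unusedSectionVars false
set_option linter.unusedVariables false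
set_option linter.style.haveILetI false

namespace Fermat.Agent.S38.H546

noncomputable section

open IsLocalRing TrivSqZeroExt
open Fermat.Agent.S56 Fermat.Agent.S56.H716 Fermat.Agent.S56.H596 Fermat.Agent.S53.H596
open Fermat.Agent.S38.H953 Fermat.Agent.S38.IA

section Main

variable {𝒪 : Type} [CommRing 𝒪] [IsDomain 𝒪] [IsDiscreteValuationRing 𝒪]
  [IsAdicComplete (maximalIdeal 𝒪) 𝒪]
  {ρbar : ResidualGaloisRep (ResidueField 𝒪)} {𝒟 : DefCond 𝒪}
  {DQ : GaloisRep.DeformationRingData 𝒪 ρbar 𝒟}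

attribute [local instance] Fermat.Agent.S56.tanAlgebra

/-- **(REL-P1, no frames, power series base, closed form).**  Like helper953's
`exists_surjective_powerSeries_of_relSelCob`, with the entries of the universal matrices in the
range of the evaluation map `𝒪⟦ι⟧ → DQ.R`, `X_i ↦ x i`. -/
theorem exists_surjective_powerSeries_of_range [Finite (ResidueField 𝒪)]
    (p : ℕ) (hp : p.Prime)
    (hdet : ∀ ρ' : GaloisRepAdic (DualNumber (ResidueField 𝒪)), 𝒟 ρ' → ρ'.DetIsCyclotomic p)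
    (hbc : ∀ (φ : TanHom 𝒪 DQ.R)
      (hφ : IsLocalHom (φ : DQ.R →+* DualNumber (ResidueField 𝒪))), Function.Surjective φ →
      𝒟 (DQ.ρ.baseChangeAlong (φ : DQ.R →+* DualNumber (ResidueField 𝒪)) hφ))
    (F : UFrame DQ) (D : Set GQ)
    {ι : Type} [Finite ι] (x : ι → DQ.R) (hx : ∀ i, x i ∈ maximalIdeal DQ.R)
    (hD : ∀ σ ∈ D, ∀ i j,
      F.rR σ i j ∈ Set.range (evalCNL (R := 𝒪) (maximalIdeal DQ.R) x hx))
    (g : ℕ) (hsel : RelSelCob 𝒪 ρbar 𝒟 D g) :
    ∃ γ : MvPowerSeries (ι ⊕ Fin g) 𝒪 →ₐ[𝒪] DQ.R,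
      Function.Surjective γ ∧ ∀ i, γ (MvPowerSeries.X (Sum.inl i)) = x i := by
  refine exists_surjective_sum x hx DQ.residue_surjective g ?_
  letI : Algebra (MvPowerSeries ι 𝒪) DQ.R :=
    (evalCNL (R := 𝒪) (maximalIdeal DQ.R) x hx : MvPowerSeries ι 𝒪 →+* DQ.R).toAlgebra
  haveI : IsScalarTower 𝒪 (MvPowerSeries ι 𝒪) DQ.R :=
    IsScalarTower.of_algebraMap_eq fun a =>
      ((evalCNL (R := 𝒪) (maximalIdeal DQ.R) x hx).commutes a).symm
  haveI : IsAdicComplete (maximalIdeal (MvPowerSeries ι 𝒪)) (MvPowerSeries ι 𝒪) :=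
    isAdicComplete_mvPowerSeries
  refine exists_surjective_of_relSelCob (B := MvPowerSeries ι 𝒪) p hp hdet hbc F D ?_ g hsel
  intro σ hσ i j
  obtain ⟨f, hf⟩ := hD σ hσ i j
  exact ⟨f, hf⟩

/-- The six traceless coordinates at the pivots: `(j, 0), (j, 1), (j, 2)` for
`Σ_j = F.rR (σ j)` and `(j, 3), (j, 4), (j, 5)` for `Φ_j = F.rR (φ j)`; `half = 1/2`. -/
def coord6 (F : UFrame DQ) {J : Type} (φ σ : J → GQ) (half : DQ.R) : J × Fin 6 → DQ.R :=
  fun z => ![half * (F.rR (σ z.1) 0 0 - F.rR (σ z.1) 1 1), F.rR (σ z.1) 0 1, F.rR (σ z.1) 1 0,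
    half * (F.rR (φ z.1) 0 0 - F.rR (φ z.1) 1 1), F.rR (φ z.1) 0 1, F.rR (φ z.1) 1 0] z.2

theorem coord6_mem {J : Type} (F : UFrame DQ) (φ σ : J → GQ) (a : J → 𝒪) (half : DQ.R)
    (hφ : ∀ j, ρbar.ρ (φ j) = residue 𝒪 (a j) • (1 : Module.End (ResidueField 𝒪) ρbar.V))
    (hσ : ∀ j, ρbar.ρ (σ j) = 1) (z : J × Fin 6) :
    coord6 F φ σ half z ∈ maximalIdeal DQ.R := by
  obtain ⟨j, i⟩ := z
  have hp := fun b i i' => pivX_mem F φ σ a hφ hσ (j, b, i, i')
  have s00 : F.rR (σ j) 0 0 - 1 ∈ maximalIdeal DQ.R := by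
    simpa [pivX] using hp true 0 0
  have s11 : F.rR (σ j) 1 1 - 1 ∈ maximalIdeal DQ.R := by
    simpa [pivX] using hp true 1 1
  have s01 : F.rR (σ j) 0 1 ∈ maximalIdeal DQ.R := by
    simpa [pivX] using hp true 0 1
  have s10 : F.rR (σ j) 1 0 ∈ maximalIdeal DQ.R := by
    simpa [pivX] using hp true 1 0
  have f00 : F.rR (φ j) 0 0 - algebraMap 𝒪 DQ.R (a j) ∈ maximalIdeal DQ.R := by
    simpa [pivX] using hp false 0 0
  have f11 : F.rR (φ j) 1 1 - algebraMap 𝒪 DQ.R (a j) ∈ maximalIdeal DQ.R := by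
    simpa [pivX] using hp false 1 1
  have f01 : F.rR (φ j) 0 1 ∈ maximalIdeal DQ.R := by
    simpa [pivX] using hp false 0 1
  have f10 : F.rR (φ j) 1 0 ∈ maximalIdeal DQ.R := by
    simpa [pivX] using hp false 1 0
  have sd : F.rR (σ j) 0 0 - F.rR (σ j) 1 1 ∈ maximalIdeal DQ.R := by
    have := Ideal.sub_mem _ s00 s11
    rwa [sub_sub_sub_cancel_right] at this
  have fd : F.rR (φ j) 0 0 - F.rR (φ j) 1 1 ∈ maximalIdeal DQ.R := by
    have := Ideal.sub_mem _ f00 f11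
    rwa [sub_sub_sub_cancel_right] at this
  fin_cases i
  · exact Ideal.mul_mem_left _ _ sd
  · exact s01
  · exact s10
  · exact Ideal.mul_mem_left _ _ fd
  · exact f01
  · exact f10

/-- **(GAL), six traceless coordinates per pivot**: presentation of the universal deformation
ring over the power series ring on the traceless coordinates of the universal matrices at the
pivot primes. -/
theorem exists_surjective_coord6 [Finite (ResidueField 𝒪)]
    (p : ℕ) (hp : p.Prime) (h2 : IsUnit (2 : 𝒪))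
    (hdet : ∀ ρ' : GaloisRepAdic (DualNumber (ResidueField 𝒪)), 𝒟 ρ' → ρ'.DetIsCyclotomic p)
    (hbc : ∀ (φ : TanHom 𝒪 DQ.R)
      (hφ : IsLocalHom (φ : DQ.R →+* DualNumber (ResidueField 𝒪))), Function.Surjective φ →
      𝒟 (DQ.ρ.baseChangeAlong (φ : DQ.R →+* DualNumber (ResidueField 𝒪)) hφ))
    (F : UFrame DQ) {J : Type} [Finite J] (φ σ : J → GQ) (a d : J → 𝒪)
    (hφ : ∀ j, ρbar.ρ (φ j) = residue 𝒪 (a j) • (1 : Module.End (ResidueField 𝒪) ρbar.V))
    (hσ : ∀ j, ρbar.ρ (σ j) = 1)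
    (hau : ∀ j, IsUnit (a j)) (had : ∀ j, a j ^ 2 - d j ∈ maximalIdeal 𝒪)
    (hdφ : ∀ j, (F.rR (φ j)).det = algebraMap 𝒪 DQ.R (d j))
    (hdσ : ∀ j, (F.rR (σ j)).det = 1)
    (g : ℕ) (hsel : RelSelCob 𝒪 ρbar 𝒟 (Set.range φ ∪ Set.range σ) g) :
    ∃ γ : MvPowerSeries ((J × Fin 6) ⊕ Fin g) 𝒪 →ₐ[𝒪] DQ.R, Function.Surjective γ ∧
      ∀ j,
        (2 * γ (MvPowerSeries.X (Sum.inl (j, 0))) = F.rR (σ j) 0 0 - F.rR (σ j) 1 1 ∧
          γ (MvPowerSeries.X (Sum.inl (j, 1))) = F.rR (σ j) 0 1 ∧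
          γ (MvPowerSeries.X (Sum.inl (j, 2))) = F.rR (σ j) 1 0) ∧
        (2 * γ (MvPowerSeries.X (Sum.inl (j, 3))) = F.rR (φ j) 0 0 - F.rR (φ j) 1 1 ∧
          γ (MvPowerSeries.X (Sum.inl (j, 4))) = F.rR (φ j) 0 1 ∧
          γ (MvPowerSeries.X (Sum.inl (j, 5))) = F.rR (φ j) 1 0) := by
  classical
  have hlocR : IsLocalHom (algebraMap 𝒪 DQ.R) := DQ.instIsLocalHom
  set half : DQ.R := algebraMap 𝒪 DQ.R (↑h2.unit⁻¹ : 𝒪) with hhalf
  have h2half : (2 : DQ.R) * half = 1 := by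
    rw [hhalf, ← map_ofNat (algebraMap 𝒪 DQ.R) 2, ← map_mul]
    have : (2 : 𝒪) * ↑h2.unit⁻¹ = 1 := by
      have := h2.unit.mul_inv
      rwa [IsUnit.unit_spec] at this
    rw [this, map_one]
  have hx := coord6_mem F φ σ a half hφ hσ
  have hpiv := fun j b i i' => pivX_mem F φ σ a hφ hσ (j, b, i, i')
  have hc0 : ∀ y : DQ.R, 2 * (half * y) = y := fun y => by
    rw [← mul_assoc, h2half, one_mul]
  have hD : ∀ τ ∈ Set.range φ ∪ Set.range σ, ∀ i j, F.rR τ i j ∈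
      Set.range (evalCNL (R := 𝒪) (maximalIdeal DQ.R) (coord6 F φ σ half) hx) := by
    intro τ hτ
    rcases hτ with ⟨j, rfl⟩ | ⟨j, rfl⟩
    · -- `Φ_j`: `c = a j`, determinant `d j`
      refine entries_mem_range_evalCNL hlocR (coord6 F φ σ half) hx (F.rR (φ j)) (a j) (d j)
        (h2.mul (hau j)) (had j) (hdφ j) ?_ ?_ (j, 3) (j, 4) (j, 5) (hc0 _) rfl rfl
      · simpa [pivX] using hpiv j false 0 0
      · simpa [pivX] using hpiv j false 1 1
    · -- `Σ_j`: `c = 1`, determinant `1`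
      refine entries_mem_range_evalCNL hlocR (coord6 F φ σ half) hx (F.rR (σ j)) 1 1
        (by rw [mul_one]; exact h2) (by rw [one_pow, sub_self]; exact Ideal.zero_mem _)
        (by rw [hdσ j, map_one]) ?_ ?_ (j, 0) (j, 1) (j, 2) (hc0 _) rfl rfl
      · simpa [pivX] using hpiv j true 0 0
      · simpa [pivX] using hpiv j true 1 1
  obtain ⟨γ, hγ, hγX⟩ := exists_surjective_powerSeries_of_range p hp hdet hbc F
    (Set.range φ ∪ Set.range σ) (coord6 F φ σ half) hx hD g hsel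
  refine ⟨γ, hγ, fun j => ⟨⟨?_, ?_, ?_⟩, ?_, ?_, ?_⟩⟩
  · rw [hγX]; exact hc0 _
  · rw [hγX]; rfl
  · rw [hγX]; rfl
  · rw [hγX]; exact hc0 _
  · rw [hγX]; rfl
  · rw [hγX]; rfl

/-! ## The vocabulary of `IA.IAGalStatement` -/

/-- The coordinate system of `DQ.ρ.V` given by a frame. -/
def frameEquiv (F : UFrame DQ) : DQ.ρ.V ≃ₗ[DQ.R] (Fin 2 → DQ.R) :=
  F.eR.toLinearEquiv

theorem frameEquiv_apply (F : UFrame DQ) (τ : GQ) (v : DQ.ρ.V) :
    frameEquiv F (DQ.ρ.ρ τ v) = (F.rR τ).mulVec (frameEquiv F v) := F.eR.map_apply τ v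

/-- The basis of `DQ.ρ.V` given by a frame. -/
def frameBasis (F : UFrame DQ) : Module.Basis (Fin 2) DQ.R DQ.ρ.V :=
  Module.Basis.ofEquivFun (frameEquiv F)

/-- In the basis of the frame, the universal deformation has the matrices `F.rR`. -/
theorem toMatrix_frameBasis (F : UFrame DQ) (τ : GQ) :
    LinearMap.toMatrix (frameBasis F) (frameBasis F) (DQ.ρ.ρ τ) = F.rR τ := by
  classical
  ext i j
  rw [LinearMap.toMatrix_apply]
  show (Module.Basis.ofEquivFun (frameEquiv F)).repr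
    (DQ.ρ.ρ τ (Module.Basis.ofEquivFun (frameEquiv F) j)) i = F.rR τ i j
  rw [Module.Basis.ofEquivFun_repr_apply, frameEquiv_apply, Module.Basis.coe_ofEquivFun,
    LinearEquiv.apply_symm_apply]
  simp [Matrix.mulVec, dotProduct, Pi.single_apply]

/-- `LinearMap.det` of the universal deformation is the determinant of the matrix of the frame. -/
theorem det_eq_det_rR (F : UFrame DQ) (τ : GQ) :
    LinearMap.det (DQ.ρ.ρ τ) = (F.rR τ).det := by
  rw [← LinearMap.det_toMatrix (frameBasis F), toMatrix_frameBasis]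

/-- **(GAL), in the vocabulary of the frozen `IA.IAGalStatement`.** -/
theorem exists_surjective_locAmb [Finite (ResidueField 𝒪)]
    (p : ℕ) (hp : p.Prime) (h2 : IsUnit (2 : 𝒪))
    (hdet : ∀ ρ' : GaloisRepAdic (DualNumber (ResidueField 𝒪)), 𝒟 ρ' → ρ'.DetIsCyclotomic p)
    (hbc : ∀ (φ : TanHom 𝒪 DQ.R)
      (hφ : IsLocalHom (φ : DQ.R →+* DualNumber (ResidueField 𝒪))), Function.Surjective φ →
      𝒟 (DQ.ρ.baseChangeAlong (φ : DQ.R →+* DualNumber (ResidueField 𝒪)) hφ))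
    (F : UFrame DQ) (Piv : Finset ℕ) (φ σ : Piv → GQ) (a d : Piv → 𝒪)
    (hφ : ∀ j, ρbar.ρ (φ j) = residue 𝒪 (a j) • (1 : Module.End (ResidueField 𝒪) ρbar.V))
    (hσ : ∀ j, ρbar.ρ (σ j) = 1)
    (hau : ∀ j, IsUnit (a j)) (had : ∀ j, a j ^ 2 - d j ∈ maximalIdeal 𝒪)
    (hdφ : ∀ j, LinearMap.det (DQ.ρ.ρ (φ j)) = algebraMap 𝒪 DQ.R (d j))
    (hdσ : ∀ j, LinearMap.det (DQ.ρ.ρ (σ j)) = 1)
    (g : ℕ) (hsel : RelSelCob 𝒪 ρbar 𝒟 (Set.range φ ∪ Set.range σ) g) :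
    ∃ γ : LocAmb 𝒪 Piv g →ₐ[𝒪] DQ.R, Function.Surjective γ ∧
      (∀ q : Piv, IsTracelessCoords (frameBasis F) (DQ.ρ.ρ (σ q))
        (fun j => γ (vVar 𝒪 g q j))) ∧
      (∀ q : Piv, IsTracelessCoords (frameBasis F) (DQ.ρ.ρ (φ q))
        (fun j => γ (wVar 𝒪 g q j))) := by
  obtain ⟨γ, hγ, hγX⟩ := exists_surjective_coord6 p hp h2 hdet hbc F φ σ a d hφ hσ hau had
    (fun j => by rw [← det_eq_det_rR, hdφ j]) (fun j => by rw [← det_eq_det_rR, hdσ j]) g hsel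
  refine ⟨γ, hγ, fun q => ?_, fun q => ?_⟩
  · obtain ⟨⟨h0, h1, h2'⟩, -⟩ := hγX q
    refine ⟨?_, ?_, ?_⟩
    · rw [toMatrix_frameBasis]; exact h0
    · rw [toMatrix_frameBasis]; exact h1
    · rw [toMatrix_frameBasis]; exact h2'
  · obtain ⟨-, h0, h1, h2'⟩ := hγX q
    refine ⟨?_, ?_, ?_⟩
    · rw [toMatrix_frameBasis]; exact h0
    · rw [toMatrix_frameBasis]; exact h1
    · rw [toMatrix_frameBasis]; exact h2'

end Main

end

end Fermat.Agent.S38.H546
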