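import Fermat.Agent.S38.IA.Gal.IAGalMain
import Fermat.Agent.S38.IA.H183.Closed
import Fermat.Agent.S38.H419.TypeClause
import Fermat.Agent.S38.H546.Coord6

/-!
# Leaf GAL of Ihara avoidance for BOTH conditions at `p` (`t = .flat` and `t = .sord`) and every
# odd prime `p` (`p = 3` included)   (helper546; S59 endgame, cell (B2))

The frozen leaf `IA.IAGalStatement` of the trunk (`S38/IA/Spec2.lean`) is stated for
`sigmaCond 𝒪 p .flat`.  Nothing on the Galois side uses flatness or `5 ≤ p`: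

* `IAGalTStatement_h546 t` : the statement of `IA.IAGalStatement` VERBATIM with `.flat` replaced
  by `t : PType` and without the (unused) hypothesis that `ρ̄` is flat at `p`;
* `iaGalT_h546 : t = .flat ∨ t = .sord → IAGalTStatement_h546 t`, UNCONDITIONAL
  (helper183's relative Taylor–Wiles theorem for `flatCond` / `ordCond`, helper1's integrator
  `iaGal_of`, helper419's determinant and TYPE clauses, which are uniform in `t`);
* `iaGal_of_galT_h546 : IAGalTStatement_h546 .flat → IA.IAGalStatement` (the trunk's leaf).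

Nothing unproved in this file.
-/

set_option autoImplicit false

open IsLocalRing

namespace Fermat.Agent.S38.H546

open Fermat.Agent.S56 Fermat.Agent.S38.H953 Fermat.Agent.S38.IA
open Fermat.Agent.S59.Arch (ResidualHyp sigmaCond PType)
open Fermat.Agent.S59.TW.H959 (IsTWSet)

/-- **Leaf GAL for the condition `t` at `p`**: `IA.IAGalStatement` with `.flat` replaced by `t`
(no flatness hypothesis on `ρ̄`). -/
def IAGalTStatement_h546 (t : PType) : Prop :=
  ∀ (p : ℕ) [Fact p.Prime]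
    (𝒪 : Type) [CommRing 𝒪] [IsDomain 𝒪] [IsDiscreteValuationRing 𝒪]
    [IsAdicComplete (maximalIdeal 𝒪) 𝒪] [Finite (ResidueField 𝒪)] [CharZero 𝒪]
    (ρbar : ResidualGaloisRep (ResidueField 𝒪)) (Smin : Finset ℕ)
    (_h : ResidualHyp p 𝒪 ρbar Smin)
    (Piv : Finset ℕ) (_hPiv : IsPivotSet p ρbar Smin Piv)
    (_hroots : ∀ q ∈ Piv, ∀ m : ℕ, p ^ m ∣ q - 1 → ∃ ζ : 𝒪, IsPrimitiveRoot ζ (p ^ m)),
    ∃ r : ℕ, 3 * Piv.card ≤ r ∧ ∀ n : ℕ, ∃ qv : Fin r → ℕ, IsTWSet p ρbar (Smin ∪ Piv) n qv ∧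
      ∀ DQ : GaloisRep.DeformationRingData 𝒪 ρbar
          (sigmaCond 𝒪 p t Smin (Smin ∪ Piv ∪ Finset.univ.image qv)),
        ∃ (bas : Module.Basis (Fin 2) DQ.R DQ.ρ.V)
          (Pv : Piv → ValuationSubring (AlgebraicClosure ℚ))
          (φv σv : Piv → (AlgebraicClosure ℚ ≃ₐ[ℚ] AlgebraicClosure ℚ))
          (γ : LocAmb 𝒪 Piv (r - 3 * Piv.card) →ₐ[𝒪] DQ.R),
          Function.Surjective γ ∧
          (∀ q : Piv, (Pv q).LiesOverPrime (q : ℕ) ∧ (Pv q).IsFrobeniusAt (φv q) (q : ℕ) ∧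
            σv q ∈ (Pv q).inertiaSubgroupIn ℚ) ∧
          (∀ q : Piv, IsTracelessCoords bas (DQ.ρ.ρ (σv q))
            (fun j => γ (vVar 𝒪 (r - 3 * Piv.card) q j))) ∧
          (∀ q : Piv, IsTracelessCoords bas (DQ.ρ.ρ (φv q))
            (fun j => γ (wVar 𝒪 (r - 3 * Piv.card) q j))) ∧
          (∀ q : Piv, LinearMap.det (DQ.ρ.ρ (φv q)) = ((q : ℕ) : DQ.R)) ∧
          (∀ (𝒪' : Type) [CommRing 𝒪'] [IsDomain 𝒪'] [IsDiscreteValuationRing 𝒪'] [CharZero 𝒪']
              [Algebra 𝒪 𝒪'] (y : DQ.R →ₐ[𝒪] 𝒪') (hy : IsLocalHom (y : DQ.R →+* 𝒪')),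
              (∀ q ∈ Piv,
                ¬ (DQ.ρ.baseChangeAlong (y : DQ.R →+* 𝒪') hy).IsUnipotentOnInertiaAt q) →
              ∃ δ : Piv → 𝒪, (∀ q : Piv, IsTypeValue p (q : ℕ) (δ q)) ∧
                ∀ a ∈ typeIdeal 𝒪 (r - 3 * Piv.card) δ, y (γ a) = 0)

/-- helper183's relative Taylor–Wiles theorem, as the `Prop` of the integrator (copy for this
file). -/
theorem relTWCob_T_h546 : IA.Gal.RelTWCobStatement := by
  intro 𝒪 _ _ _ _ _ p ρbar S Smin hyp T hT hdisj hsc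
  exact ⟨IA.H183.relTWPrimesCobFlat 𝒪 p ρbar S Smin hyp T hT hdisj hsc,
    IA.H183.relTWPrimesCobOrd 𝒪 p ρbar S Smin hyp T hT hdisj hsc⟩

section Adapter

variable {𝒪 : Type} [CommRing 𝒪] [IsDomain 𝒪] [IsDiscreteValuationRing 𝒪]
  [IsAdicComplete (maximalIdeal 𝒪) 𝒪]
  {ρbar : ResidualGaloisRep (ResidueField 𝒪)} {𝒟 : DefCond 𝒪}
  {DQ : GaloisRep.DeformationRingData 𝒪 ρbar 𝒟}

/-- Traceless coordinates of the matrix `F.rR τ` are traceless coordinates of the endomorphism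
`DQ.ρ.ρ τ` in the basis `frameBasis F`. -/
theorem isTracelessCoords_frameBasis_h546 (F : UFrame DQ) (τ : GQ) (u : Fin 3 → DQ.R)
    (h : IA.Gal.IsTraceless (F.rR τ) (u 0) (u 1) (u 2)) :
    IA.IsTracelessCoords (frameBasis F) (DQ.ρ.ρ τ) u := by
  unfold IA.IsTracelessCoords
  rw [toMatrix_frameBasis]
  exact h

end Adapter

/-- **Leaf GAL for `t = .flat` and `t = .sord`, every odd `p`, unconditionally.** -/
theorem iaGalT_h546 (t : PType) (ht : t = .flat ∨ t = .sord) : IAGalTStatement_h546 t := by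
  intro p _ 𝒪 _ _ _ _ _ _ ρbar Smin hres Piv hPiv hroots
  obtain ⟨r, Pl, φ, σ, a, h3, htame, hn⟩ :=
    IA.Gal.iaGal_of relTWCob_T_h546 p 𝒪 ρbar Smin hres t ht Piv hPiv
  refine ⟨r, h3, fun n => ?_⟩
  obtain ⟨qv, hTW, hDQ⟩ := hn n
  refine ⟨qv, hTW, fun DQ => ?_⟩
  obtain ⟨F, γ, hγ, hpiv⟩ := hDQ DQ
  have hv : ∀ q : Piv, IsTracelessCoords (frameBasis F) (DQ.ρ.ρ (σ q))
      (fun j => γ (vVar 𝒪 (r - 3 * Piv.card) q j)) := fun q =>
    isTracelessCoords_frameBasis_h546 F (σ q) _ (hpiv q).sig_traceless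
  have hw : ∀ q : Piv, IsTracelessCoords (frameBasis F) (DQ.ρ.ρ (φ q))
      (fun j => γ (wVar 𝒪 (r - 3 * Piv.card) q j)) := fun q =>
    isTracelessCoords_frameBasis_h546 F (φ q) _ (hpiv q).phi_traceless
  refine ⟨frameBasis F, fun q => Pl q, fun q => φ q, fun q => σ q, γ, hγ,
    fun q => ⟨(htame q q.2).1, (htame q q.2).2.1.frob, (htame q q.2).2.1.mem⟩, hv, hw, ?_, ?_⟩
  · exact (H419.det_clause_iaGal_h419 p 𝒪 ρbar Smin hres Piv hPiv t _ DQ (fun q => Pl q)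
      (fun q => φ q) (fun q => σ q) (fun q => (htame q q.2).1)
      (fun q => (htame q q.2).2.1.frob) (fun q => (htame q q.2).2.1.mem)).1
  · exact H419.typeClause_iaGal_h419 p 𝒪 ρbar Smin hres Piv hPiv hroots t _ _ DQ (frameBasis F)
      (fun q => Pl q) (fun q => φ q) (fun q => σ q) (fun q => (htame q q.2).1)
      (fun q => (htame q q.2).2.1) γ hv hw

/-- The strict-ordinary case. -/
theorem iaGalSord_h546 : IAGalTStatement_h546 .sord := iaGalT_h546 .sord (Or.inr rfl)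

/-- The flat case. -/
theorem iaGalFlat_h546 : IAGalTStatement_h546 .flat := iaGalT_h546 .flat (Or.inl rfl)

/-- The trunk's frozen leaf is the flat case. -/
theorem iaGal_of_galT_h546 (h : IAGalTStatement_h546 .flat) : IA.IAGalStatement :=
  fun p _ 𝒪 _ _ _ _ _ _ ρbar Smin hres _hflat Piv hPiv hroots =>
    h p 𝒪 ρbar Smin hres Piv hPiv hroots

end Fermat.Agent.S38.H546
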