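import Fermat.Agent.S38.H546.AsmT
import Fermat.Agent.S59.LO.H405.PivotSpec

/-!
# Ihara avoidance for the condition `t` at `p`: the CORE from the Hecke side
# (helper546; S59 endgame, cell (B2) = LO-IA)

With `S38/H546/AsmT.lean` (`ia_false_T_h546`: every closed leaf plugged in) the IA-core for
`t = .flat` / `.sord` and every odd `p` is reduced to the Hecke side:

* `ribetLevelT_h546 p t Smin Piv` : the minimal level (`ribetLevel`, times `p` unless `t = .flat`;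
  the convention announced by helper3 for HECKE-T);
* `IAHeckeTStatement_h546` : the Hecke side for `(t, p)` — `IA.IAHeckeStatement` with `.flat → t`,
  the hypothesis `_ht` of `TW.PkgStatement` instead of flatness, levels `ribetLevelT_h546`;
  `IAHeckeT35Statement_h546` : the same for `p ∈ {3, 5}` only;
* `IACoreTStatement_h546` : level lowering at a pivot for `(t, p)`;
* `iaCoreT_of_heckeT_h546 : IAHeckeTStatement_h546 → IACoreTStatement_h546`;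
* `iaCoreFlat35_of_heckeT35_h546`, `iaCoreSord35_of_heckeT35_h546` : the two inputs
  `IACoreFlat35Statement`, `IACoreSord35Statement` of helper405's W-TOP (`S59/LO/H405`)
  from the Hecke side at `p ∈ {3, 5}`.

Nothing unproved in this file.
-/

set_option autoImplicit false

open IsLocalRing

namespace Fermat.Agent.S38.H546

open Fermat.Agent.S38.IA
open Fermat.Agent.S59.Arch (ResidualHyp sigmaCond PType ResModular)
open Fermat.Agent.S59.TW.H959 (IsTWSet)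

/-- **The minimal level for the condition `t`**: `ribetLevel p Smin Piv`, times `p` unless
`t = .flat`. -/
noncomputable def ribetLevelT_h546 (p : ℕ) (t : PType) (Smin Piv : Finset ℕ) : ℕ :=
  match t with
  | .flat => ribetLevel p Smin Piv
  | .sord => ribetLevel p Smin Piv * p
  | .ord => ribetLevel p Smin Piv * p

theorem ribetLevelT_flat_h546 (p : ℕ) (Smin Piv : Finset ℕ) :
    ribetLevelT_h546 p .flat Smin Piv = ribetLevel p Smin Piv := rfl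

theorem ribetLevelT_sord_h546 (p : ℕ) (Smin Piv : Finset ℕ) :
    ribetLevelT_h546 p .sord Smin Piv = ribetLevel p Smin Piv * p := rfl

/-- **The Hecke side of Ihara avoidance for `(t, p)`**, `p` odd (through `ResidualHyp`). -/
def IAHeckeTStatement_h546 : Prop :=
  ∀ (p : ℕ) [Fact p.Prime]
    (𝒪 : Type) [CommRing 𝒪] [IsDomain 𝒪] [IsDiscreteValuationRing 𝒪]
    [IsAdicComplete (maximalIdeal 𝒪) 𝒪] [Finite (ResidueField 𝒪)] [CharZero 𝒪]
    (ρbar : ResidualGaloisRep (ResidueField 𝒪)) (Smin : Finset ℕ)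
    (_h : ResidualHyp p 𝒪 ρbar Smin) (t : PType)
    (_ht : (t = .flat ∧ (GaloisRepAdic.ofResidualGaloisRep ρbar).IsFlatAt p) ∨
      (t = .sord ∧ (GaloisRepAdic.ofResidualGaloisRep ρbar).IsStrictOrdinaryAt p ∧
        ¬ (GaloisRepAdic.ofResidualGaloisRep ρbar).IsFlatAt p))
    (ζ : 𝒪) (_hζ : IsPrimitiveRoot ζ p)
    (Piv : Finset ℕ) (_hPiv : IsPivotSet p ρbar Smin Piv)
    (_hmod : ResModular 𝒪 ρbar (ribetLevelT_h546 p t Smin Piv) (Smin ∪ Piv))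
    (_hmin : ∀ q ∈ Piv, ∀ S : Finset ℕ,
      ¬ ResModular 𝒪 ρbar (ribetLevelT_h546 p t Smin (Piv.erase q)) S),
    ∃ d : ℕ, 0 < d ∧ ∀ (n r : ℕ) (qv : Fin r → ℕ), IsTWSet p ρbar (Smin ∪ Piv) n qv →
      HasIAModuleT_h546 p 𝒪 ρbar t Smin Piv (ζ - 1) d n qv

/-- The Hecke side for `p ∈ {3, 5}` only. -/
def IAHeckeT35Statement_h546 : Prop :=
  ∀ (p : ℕ) [Fact p.Prime] (_hp : p = 3 ∨ p = 5)
    (𝒪 : Type) [CommRing 𝒪] [IsDomain 𝒪] [IsDiscreteValuationRing 𝒪]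
    [IsAdicComplete (maximalIdeal 𝒪) 𝒪] [Finite (ResidueField 𝒪)] [CharZero 𝒪]
    (ρbar : ResidualGaloisRep (ResidueField 𝒪)) (Smin : Finset ℕ)
    (_h : ResidualHyp p 𝒪 ρbar Smin) (t : PType)
    (_ht : (t = .flat ∧ (GaloisRepAdic.ofResidualGaloisRep ρbar).IsFlatAt p) ∨
      (t = .sord ∧ (GaloisRepAdic.ofResidualGaloisRep ρbar).IsStrictOrdinaryAt p ∧
        ¬ (GaloisRepAdic.ofResidualGaloisRep ρbar).IsFlatAt p))
    (ζ : 𝒪) (_hζ : IsPrimitiveRoot ζ p)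
    (Piv : Finset ℕ) (_hPiv : IsPivotSet p ρbar Smin Piv)
    (_hmod : ResModular 𝒪 ρbar (ribetLevelT_h546 p t Smin Piv) (Smin ∪ Piv))
    (_hmin : ∀ q ∈ Piv, ∀ S : Finset ℕ,
      ¬ ResModular 𝒪 ρbar (ribetLevelT_h546 p t Smin (Piv.erase q)) S),
    ∃ d : ℕ, 0 < d ∧ ∀ (n r : ℕ) (qv : Fin r → ℕ), IsTWSet p ρbar (Smin ∪ Piv) n qv →
      HasIAModuleT_h546 p 𝒪 ρbar t Smin Piv (ζ - 1) d n qv

theorem iaHeckeT35_of_heckeT_h546 (h : IAHeckeTStatement_h546) : IAHeckeT35Statement_h546 :=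
  fun p _ _ 𝒪 _ _ _ _ _ _ ρbar Smin hh t ht ζ hζ Piv hPiv hmod hmin =>
    h p 𝒪 ρbar Smin hh t ht ζ hζ Piv hPiv hmod hmin

/-- **IA-CORE for `(t, p)`**: level lowering at a pivot. -/
def IACoreTStatement_h546 : Prop :=
  ∀ (p : ℕ) [Fact p.Prime]
    (𝒪 : Type) [CommRing 𝒪] [IsDomain 𝒪] [IsDiscreteValuationRing 𝒪]
    [IsAdicComplete (maximalIdeal 𝒪) 𝒪] [Finite (ResidueField 𝒪)] [CharZero 𝒪]
    (ρbar : ResidualGaloisRep (ResidueField 𝒪)) (Smin : Finset ℕ)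
    (_h : ResidualHyp p 𝒪 ρbar Smin) (t : PType)
    (_ht : (t = .flat ∧ (GaloisRepAdic.ofResidualGaloisRep ρbar).IsFlatAt p) ∨
      (t = .sord ∧ (GaloisRepAdic.ofResidualGaloisRep ρbar).IsStrictOrdinaryAt p ∧
        ¬ (GaloisRepAdic.ofResidualGaloisRep ρbar).IsFlatAt p))
    (Piv : Finset ℕ) (_hPiv : IsPivotSet p ρbar Smin Piv) (_hne : Piv.Nonempty)
    (_hroots : ∀ q ∈ Piv, ∀ m : ℕ, p ^ m ∣ q - 1 → ∃ ζ : 𝒪, IsPrimitiveRoot ζ (p ^ m))
    (_hmod : ResModular 𝒪 ρbar (ribetLevelT_h546 p t Smin Piv) (Smin ∪ Piv)),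
    ∃ q ∈ Piv, ∃ S : Finset ℕ, ResModular 𝒪 ρbar (ribetLevelT_h546 p t Smin (Piv.erase q)) S

section Core

variable {p : ℕ} [Fact p.Prime]
  {𝒪 : Type} [CommRing 𝒪] [IsDomain 𝒪] [IsDiscreteValuationRing 𝒪]
  [IsAdicComplete (maximalIdeal 𝒪) 𝒪] [Finite (ResidueField 𝒪)] [CharZero 𝒪]
  {ρbar : ResidualGaloisRep (ResidueField 𝒪)} {Smin : Finset ℕ}

/-- The residual condition from the hypothesis `_ht`. -/
theorem resCond_of_ht_h546 (h : ResidualHyp p 𝒪 ρbar Smin) {t : PType}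
    (ht : (t = .flat ∧ (GaloisRepAdic.ofResidualGaloisRep ρbar).IsFlatAt p) ∨
      (t = .sord ∧ (GaloisRepAdic.ofResidualGaloisRep ρbar).IsStrictOrdinaryAt p ∧
        ¬ (GaloisRepAdic.ofResidualGaloisRep ρbar).IsFlatAt p)) :
    ∀ Sig : Finset ℕ, Smin ⊆ Sig →
      sigmaCond 𝒪 p t Smin Sig (GaloisRepAdic.ofResidualGaloisRep ρbar) := by
  rcases ht with ⟨rfl, hflat⟩ | ⟨rfl, hso, -⟩
  · exact resCond_flat_h546 h hflat
  · exact resCond_sord_h546 h hso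

/-- **The core at one `(t, p, 𝒪, ρ̄, Smin, Piv)`** from the Hecke side at these data. -/
theorem iaCoreT_at_h546 (h : ResidualHyp p 𝒪 ρbar Smin) {t : PType}
    (ht : (t = .flat ∧ (GaloisRepAdic.ofResidualGaloisRep ρbar).IsFlatAt p) ∨
      (t = .sord ∧ (GaloisRepAdic.ofResidualGaloisRep ρbar).IsStrictOrdinaryAt p ∧
        ¬ (GaloisRepAdic.ofResidualGaloisRep ρbar).IsFlatAt p))
    (Piv : Finset ℕ) (hPiv : IsPivotSet p ρbar Smin Piv) (hne : Piv.Nonempty)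
    (hroots : ∀ q ∈ Piv, ∀ m : ℕ, p ^ m ∣ q - 1 → ∃ ζ : 𝒪, IsPrimitiveRoot ζ (p ^ m))
    (hHeckeAt : ∀ ζ : 𝒪, IsPrimitiveRoot ζ p →
      (∀ q ∈ Piv, ∀ S : Finset ℕ,
        ¬ ResModular 𝒪 ρbar (ribetLevelT_h546 p t Smin (Piv.erase q)) S) →
      ∃ d : ℕ, 0 < d ∧ ∀ (n r : ℕ) (qv : Fin r → ℕ), IsTWSet p ρbar (Smin ∪ Piv) n qv →
        HasIAModuleT_h546 p 𝒪 ρbar t Smin Piv (ζ - 1) d n qv) :
    ∃ q ∈ Piv, ∃ S : Finset ℕ, ResModular 𝒪 ρbar (ribetLevelT_h546 p t Smin (Piv.erase q)) S := by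
  by_contra hcon
  have hmin : ∀ q ∈ Piv, ∀ S : Finset ℕ,
      ¬ ResModular 𝒪 ρbar (ribetLevelT_h546 p t Smin (Piv.erase q)) S :=
    fun q hq S hS => hcon ⟨q, hq, S, hS⟩
  have htt : t = .flat ∨ t = .sord := by
    rcases ht with ⟨h1, -⟩ | ⟨h1, -⟩
    · exact Or.inl h1
    · exact Or.inr h1
  exact ia_false_T_h546 t htt p 𝒪 ρbar Smin h (resCond_of_ht_h546 h ht) Piv hPiv hne hroots
    (fun ζ hζ => hHeckeAt ζ hζ hmin)

end Core

/-- **IA-CORE for `(t, p)` from the Hecke side.** -/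
theorem iaCoreT_of_heckeT_h546 (hH : IAHeckeTStatement_h546) : IACoreTStatement_h546 :=
  fun p _ 𝒪 _ _ _ _ _ _ ρbar Smin h t ht Piv hPiv hne hroots hmod =>
    iaCoreT_at_h546 h ht Piv hPiv hne hroots
      (fun ζ hζ hmin => hH p 𝒪 ρbar Smin h t ht ζ hζ Piv hPiv hmod hmin)

/-- **helper405's `IACoreFlat35Statement`** from the Hecke side at `p ∈ {3, 5}`. -/
theorem iaCoreFlat35_of_heckeT35_h546 (hH : IAHeckeT35Statement_h546) :
    Fermat.Agent.S59.LO.H405.IACoreFlat35Statement :=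
  fun p _ hp 𝒪 _ _ _ _ _ _ ρbar Smin h hflat Piv hPiv hne hroots hmod =>
    iaCoreT_at_h546 (t := .flat) h (Or.inl ⟨rfl, hflat⟩) Piv hPiv hne hroots
      (fun ζ hζ hmin =>
        hH p hp 𝒪 ρbar Smin h .flat (Or.inl ⟨rfl, hflat⟩) ζ hζ Piv hPiv hmod hmin)

/-- **helper405's `IACoreSord35Statement`** from the Hecke side at `p ∈ {3, 5}`. -/
theorem iaCoreSord35_of_heckeT35_h546 (hH : IAHeckeT35Statement_h546) :
    Fermat.Agent.S59.LO.H405.IACoreSord35Statement :=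
  fun p _ hp 𝒪 _ _ _ _ _ _ ρbar Smin h hso hnflat Piv hPiv hne hroots hmod =>
    iaCoreT_at_h546 (t := .sord) h (Or.inr ⟨rfl, hso, hnflat⟩) Piv hPiv hne hroots
      (fun ζ hζ hmin =>
        hH p hp 𝒪 ρbar Smin h .sord (Or.inr ⟨rfl, hso, hnflat⟩) ζ hζ Piv hPiv hmod hmin)

end Fermat.Agent.S38.H546
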